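/-
P-S27, piece G1-DICT (helper24): degree, norm and range for a `Γ`-general analytic realisation.

Setting: `F / ℂ` a field, `x : F`, `Γ` a subgroup of `SL(2,ℤ)` with finitely many cosets,
`D : Dict.ConjAbs.EmbData ℂ F (RingHom.id ℂ) x Γ` an embedding `F →+* MerFun` with `emb x = j`
whose stabiliser is exactly `Γ`, and all `SL(2,ℤ)`-translates of all `emb f` are quotients of cusp
functions of level `n` (`hcusp`).  Then

* `exists_poly` : every `a : F` is a root of a monic polynomial of degree `[SL(2,ℤ) : Γ]` over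
  `ℂ(x)` (the characteristic polynomial of the conjugates, whose coefficients are invariant
  meromorphic functions, hence rational functions of `j`);
* `finrank_and_norm` : `[F : ℂ(x)] = [SL(2,ℤ) : Γ]` and the norm is the product of the conjugates;
* `mem_range_iff` : the range of `emb` consists exactly of the `Γ`-invariant elements of `MerFun`
  all of whose translates are quotients of cusp functions of level `n`.

These are the `Γ`-general versions of `Gateway/Dict/DegreeC.lean` and `Gateway/Dict/RangeC.lean`.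
-/
import Fermat.Agent.Gateway.Dict.RangeC

set_option autoImplicit false
set_option linter.unusedSectionVars false

noncomputable section

open UpperHalfPlane IntermediateField Polynomial
open scoped MatrixGroups

namespace Fermat.Agent.S27x.G1

open Fermat.Agent.S24 Fermat.Agent.S24.MerFun Fermat.Agent.S24.CuspOrd
open Fermat.Agent.Gateway.Dict Fermat.Agent.Gateway.Dict.ConjAbs

variable {F : Type*} [Field F] [Algebra ℂ F] {x : F} {Γ : Subgroup SL(2, ℤ)}
  (D : EmbData ℂ F (RingHom.id ℂ) x Γ)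

/-- Every rational function of `j` is the image of an element of `ℂ(x) ⊆ F`. -/
theorem exists_adjoin_of_ratfunc {c : MerFun} {P Q : Polynomial ℂ} (hQ : Q ≠ 0)
    (h : c * algebraMap HolFun MerFun (Polynomial.aeval jHol Q) =
      algebraMap HolFun MerFun (Polynomial.aeval jHol P)) :
    ∃ e : ℂ⟮x⟯, D.emb (algebraMap ℂ⟮x⟯ F e) = c := by
  set xG : ℂ⟮x⟯ := AdjoinSimple.gen ℂ x with hxG
  have hgen : algebraMap ℂ⟮x⟯ F xG = x := AdjoinSimple.algebraMap_gen ℂ x
  have hae : ∀ R : Polynomial ℂ, D.emb (algebraMap ℂ⟮x⟯ F (Polynomial.aeval xG R)) =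
      algebraMap HolFun MerFun (Polynomial.aeval jHol R) := by
    intro R
    rw [← Polynomial.aeval_algebraMap_apply, hgen]
    exact DegreeC.emb_aeval D R
  have hQJ : algebraMap HolFun MerFun (Polynomial.aeval jHol Q) ≠ 0 :=
    algebraMap_ne_zero (MerInvJ.aeval_jHol_ne_zero hQ)
  refine ⟨Polynomial.aeval xG P / Polynomial.aeval xG Q, ?_⟩
  rw [map_div₀, map_div₀, hae, hae, ← h, mul_div_assoc, div_self hQJ, mul_one]

variable [Fintype (SL(2, ℤ) ⧸ Γ)] {n : ℕ}

/-- The characteristic polynomial of the conjugates of a `Γ`-invariant element all of whose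
translates are cusp-meromorphic descends to `ℂ(x)`. -/
theorem exists_lift_prodPoly (hn : 0 < n) (h : MerFun) (hfix : ∀ γ ∈ Γ, γ • h = h)
    (hcusp : ∀ g : SL(2, ℤ), IsCuspMer n (g • h)) :
    ∃ q : Polynomial ℂ⟮x⟯, q.Monic ∧ q.natDegree = Fintype.card (SL(2, ℤ) ⧸ Γ) ∧
      q.map (D.emb.comp (algebraMap ℂ⟮x⟯ F)) = RangeAbs.prodPoly Γ h hfix := by
  set p : Polynomial MerFun := RangeAbs.prodPoly Γ h hfix with hp
  have hcoeff : ∀ i : ℕ, p.coeff i ∈ Set.range (D.emb.comp (algebraMap ℂ⟮x⟯ F)) := by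
    intro i
    have hinv : ∀ γ : SL(2, ℤ), γ • p.coeff i = p.coeff i :=
      fun γ => RangeAbs.smul_coeff_prodPoly Γ h hfix γ i
    have hc : IsCuspMer n (p.coeff i) :=
      RangeAbs.coeff_prodPoly_mem Γ h hfix (cuspMerField n).toSubring (fun g => hcusp g) i
    obtain ⟨P, Q, hQ, hPQ⟩ := RangeC.exists_ratfunc_of_invariant hn (p.coeff i) hinv hc
    obtain ⟨e, he⟩ := exists_adjoin_of_ratfunc D hQ hPQ
    exact ⟨e, he⟩
  have hlift : p ∈ Polynomial.lifts (D.emb.comp (algebraMap ℂ⟮x⟯ F)) :=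
    (Polynomial.lifts_iff_coeff_lifts p).mpr hcoeff
  have hmonic : p.Monic := RangeAbs.prodPoly_monic Γ h hfix
  obtain ⟨q, hq, hqd, hqm⟩ := Polynomial.lifts_and_natDegree_eq_and_monic hlift hmonic
  exact ⟨q, hqm, by rw [hqd, hp, RangeAbs.prodPoly_natDegree], hq⟩

variable (hn : 0 < n) (hcusp : ∀ (f : F) (g : SL(2, ℤ)), IsCuspMer n (g • D.emb f))

include hn hcusp

/-- **Degree bound.** Every element of `F` is a root of a monic polynomial of degree
`[SL(2,ℤ) : Γ]` over `ℂ(x)`. -/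
theorem exists_poly (a : F) :
    ∃ p : Polynomial ℂ⟮x⟯, p ≠ 0 ∧ p.natDegree ≤ Fintype.card (SL(2, ℤ) ⧸ Γ) ∧
      Polynomial.aeval a p = 0 := by
  obtain ⟨q, hqm, hqd, hq⟩ := exists_lift_prodPoly D hn (D.emb a) (fun γ hγ => D.fixed γ hγ a)
    (fun g => hcusp a g)
  refine ⟨q, hqm.ne_zero, hqd.le, ?_⟩
  apply D.emb.injective
  rw [map_zero, Polynomial.aeval_def, Polynomial.hom_eval₂, Polynomial.eval₂_eq_eval_map, hq]
  exact RangeAbs.prodPoly_eval_self Γ (D.emb a) _

/-- **Degree and norm.** -/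
theorem finrank_and_norm :
    FiniteDimensional ℂ⟮x⟯ F ∧
      Module.finrank ℂ⟮x⟯ F = Fintype.card (SL(2, ℤ) ⧸ Γ) ∧
      ∀ (b0 : SL(2, ℤ) ⧸ Γ) (f : F),
        sigma D b0 (algebraMap ℂ⟮x⟯ F (Algebra.norm ℂ⟮x⟯ f)) = ∏ b, sigma D b f :=
  ConjAbs.finrank_and_norm D Set.univ
    (fun f => ⟨f, Set.mem_univ f, 1, one_ne_zero, by rw [map_one, div_one]⟩)
    (fun a _ => exists_poly D hn hcusp a)

theorem finiteDimensional : FiniteDimensional ℂ⟮x⟯ F := (finrank_and_norm D hn hcusp).1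

theorem finrank_eq_card : Module.finrank ℂ⟮x⟯ F = Fintype.card (SL(2, ℤ) ⧸ Γ) :=
  (finrank_and_norm D hn hcusp).2.1

theorem norm_eq_prod (b0 : SL(2, ℤ) ⧸ Γ) (f : F) :
    sigma D b0 (algebraMap ℂ⟮x⟯ F (Algebra.norm ℂ⟮x⟯ f)) = ∏ b, sigma D b f :=
  (finrank_and_norm D hn hcusp).2.2 b0 f

/-- The subfield of `MerFun` of `Γ`-invariant elements all of whose translates are quotients of
cusp functions of level `n`. -/
def modFieldG (Γ : Subgroup SL(2, ℤ)) (n : ℕ) : Subfield MerFun where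
  carrier := {h | (∀ γ ∈ Γ, γ • h = h) ∧ ∀ g : SL(2, ℤ), IsCuspMer n (g • h)}
  mul_mem' {x y} hx hy :=
    ⟨fun γ hγ => by rw [smul_mul', hx.1 γ hγ, hy.1 γ hγ],
      fun g => by rw [smul_mul']; exact (hx.2 g).mul (hy.2 g)⟩
  one_mem' := ⟨fun γ _ => smul_one γ, fun g => by rw [smul_one]; exact isCuspMer_one n⟩
  add_mem' {x y} hx hy :=
    ⟨fun γ hγ => by rw [smul_add, hx.1 γ hγ, hy.1 γ hγ],
      fun g => by rw [smul_add]; exact (hx.2 g).add (hy.2 g)⟩
  zero_mem' := ⟨fun γ _ => smul_zero γ, fun g => by rw [smul_zero]; exact isCuspMer_zero n⟩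
  neg_mem' {x} hx :=
    ⟨fun γ hγ => by rw [smul_neg, hx.1 γ hγ], fun g => by rw [smul_neg]; exact (hx.2 g).neg⟩
  inv_mem' x hx :=
    ⟨fun γ hγ => by rw [smul_inv'', hx.1 γ hγ], fun g => by rw [smul_inv'']; exact (hx.2 g).inv⟩

omit [Fintype (SL(2, ℤ) ⧸ Γ)] hn in
theorem emb_mem_modFieldG (f : F) : D.emb f ∈ modFieldG Γ n :=
  ⟨fun γ hγ => D.fixed γ hγ f, fun g => hcusp f g⟩

/-- **The range of the analytic embedding.** -/
theorem mem_range_iff (h : MerFun) :
    h ∈ D.emb.range ↔ (∀ γ ∈ Γ, γ • h = h) ∧ ∀ g : SL(2, ℤ), IsCuspMer n (g • h) := by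
  constructor
  · rintro ⟨f, rfl⟩
    exact emb_mem_modFieldG D hcusp f
  · intro hh
    obtain ⟨hfd, hfr, -⟩ := finrank_and_norm D hn hcusp
    refine RangeAbs.mem_range_of_degree_le (E0 := ℂ⟮x⟯) (F := F) D.emb (modFieldG Γ n)
      (emb_mem_modFieldG D hcusp) ?_ (x := h) hh
    intro y hy
    obtain ⟨q, hqm, hqd, hq⟩ := exists_lift_prodPoly D hn y hy.1 hy.2
    refine ⟨q, hqm.ne_zero, by rw [hqd, hfr], ?_⟩
    rw [Polynomial.eval₂_eq_eval_map, hq]
    exact RangeAbs.prodPoly_eval_self Γ y hy.1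

end Fermat.Agent.S27x.G1
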