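/-
P-S27, piece G1-DICT (helper24): places of a `Γ`-general modular function field versus points of
`ℍ` and cusps.  `Γ`-general version of `Gateway/Dict/PlacesC.lean`.

Setting: `K` algebraically closed of characteristic zero with `ι : K →+* ℂ`, `F / K` a field,
`x : F`, `Γ ≤ SL(2,ℤ)` with finitely many cosets, `D : Dict.ConjAbs.EmbData K F ι x Γ`
(an embedding `F →+* MerFun` with `emb x = j` and stabiliser exactly `Γ`), and

* `[FiniteDimensional K⟮x⟯ F]`, `hnorm` : the norm to `K(x)` is the product of the conjugates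
  (over `ℂ` both follow from `hcusp`, see `DegreeGamma.lean`);
* `hcusp` : all `SL(2,ℤ)`-translates of all `emb f` are quotients of cusp functions of level `n`;
* `hneg : -1 ∈ Γ`, `hT : T ^ n` acts trivially on the cosets of `Γ` (e.g. `Γ(n) ≤ Γ`).

Results: `transcendental_x`, `place_cases` (every place is a point of `ℍ`, with `e` the order of
its stabiliser, or a cusp of width `w ∣ n`), `exists_place_of_point`, `exists_place_of_cusp`.
-/
import Fermat.Agent.Gateway.Dict.ConjAbs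
import Fermat.Agent.Gateway.Dict.PlaceCountRel
import Fermat.Agent.S24.Bridge
import Fermat.Agent.S24.Periods
import Fermat.Agent.S24.CuspOrdMer
import Fermat.Agent.S24.AssembleInf
import Fermat.Agent.S24.JFun.Surj
import Fermat.Agent.S24.ZP.ZeroPlaces
import Fermat.Agent.S24.PrincipalDiv
import Fermat.Agent.S24.PrincDiv
import Fermat.Agent.S24.FinalAbs

set_option autoImplicit false
set_option linter.unusedSectionVars false

noncomputable section

open UpperHalfPlane IntermediateField ModularGroup AlgebraicCurve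
open scoped MatrixGroups

namespace Fermat.Agent.S27x.G1

open Fermat.Agent.S24 Fermat.Agent.S24.CuspOrd
open Fermat.Agent.Gateway.Dict.ConjAbs Fermat.Agent.Gateway.Dict.PlaceCountRel

variable {K F : Type*} [Field K] [Field F] [Algebra K F]
  {ι : K →+* ℂ} {x : F} {Γ : Subgroup SL(2, ℤ)} (D : EmbData K F ι x Γ)

/-! ### Generalities -/

theorem emb_x_ne_const (c : ℂ) : algebraMap HolFun MerFun jHol ≠ Conj.const c := by
  intro h
  have h1 : jHol = algebraMap ℂ HolFun c := IsFractionRing.injective HolFun MerFun h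
  obtain ⟨τ, hτ⟩ := JFun.jFn_surjective (c + 1)
  have h2 := congrArg (fun f : HolFun => (f : ℍ → ℂ) τ) h1
  simp only [jHol_apply, HolFun.coe_algebraMap] at h2
  rw [hτ] at h2
  exact one_ne_zero (add_eq_left.mp h2)

include D in
/-- The coordinate `x` is transcendental over the constants. -/
theorem transcendental_x [IsAlgClosed K] : Transcendental K x := by
  intro halg
  obtain ⟨c, hc⟩ := PDiv.mem_range_of_isAlgebraic halg
  have h : D.emb (algebraMap K F c) = algebraMap HolFun MerFun jHol := by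
    rw [hc]
    exact D.emb_x
  rw [D.emb_const] at h
  exact emb_x_ne_const (ι c) h.symm

theorem sigma_mk_apply (g : SL(2, ℤ)) (f : F) :
    sigma D (QuotientGroup.mk g) f = g • D.emb f := rfl

/-- conjugation does not change the trace. -/
theorem trace_conj (g γ : SL(2, ℤ)) :
    ((g⁻¹ * γ * g : SL(2, ℤ)) : Matrix (Fin 2) (Fin 2) ℤ).trace
      = (γ : Matrix (Fin 2) (Fin 2) ℤ).trace := by
  rw [Matrix.SpecialLinearGroup.coe_mul, Matrix.SpecialLinearGroup.coe_mul,
    Matrix.trace_mul_cycle, ← Matrix.SpecialLinearGroup.coe_mul, mul_inv_cancel,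
    Matrix.SpecialLinearGroup.coe_one, Matrix.one_mul]

theorem pow_smul_fixed {γ : SL(2, ℤ)} {τ : ℍ} (hγ : γ • τ = τ) (k : ℕ) : γ ^ k • τ = τ := by
  induction k with
  | zero => simp
  | succ k ih => rw [pow_succ, mul_smul, hγ, ih]

/-- the coset of `g` is fixed by `γ` iff `g⁻¹ γ g ∈ Γ`. -/
theorem conj_mem_of_smul_eq {γ g : SL(2, ℤ)}
    (h : γ • (QuotientGroup.mk g : SL(2, ℤ) ⧸ Γ) = QuotientGroup.mk g) :
    g⁻¹ * γ * g ∈ Γ := by
  have h1 : (QuotientGroup.mk g : SL(2, ℤ) ⧸ Γ) = QuotientGroup.mk (γ * g) := h.symm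
  rw [QuotientGroup.eq] at h1
  rw [mul_assoc]
  exact h1

theorem smul_eq_of_conj_mem {γ g : SL(2, ℤ)} (h : g⁻¹ * γ * g ∈ Γ) :
    γ • (QuotientGroup.mk g : SL(2, ℤ) ⧸ Γ) = QuotientGroup.mk g := by
  have h1 : (QuotientGroup.mk g : SL(2, ℤ) ⧸ Γ) = QuotientGroup.mk (γ * g) := by
    rw [QuotientGroup.eq, ← mul_assoc]
    exact h
  exact h1.symm

/-- `-1 ∈ Γ` acts trivially on the cosets. -/
theorem neg_one_smul_coset (hneg : (-1 : SL(2, ℤ)) ∈ Γ) (b : SL(2, ℤ) ⧸ Γ) :
    (-1 : SL(2, ℤ)) • b = b := by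
  induction b using QuotientGroup.induction_on with
  | H g =>
    apply smul_eq_of_conj_mem
    have : g⁻¹ * (-1 : SL(2, ℤ)) * g = -1 := by
      rw [mul_neg, mul_one, neg_mul, inv_mul_cancel]
    rw [this]
    exact hneg

theorem S_pow_two_smul (hneg : (-1 : SL(2, ℤ)) ∈ Γ) (b : SL(2, ℤ) ⧸ Γ) : S ^ 2 • b = b := by
  rw [Comb.S_sq, neg_one_smul_coset hneg]

theorem ST_pow_three_smul (hneg : (-1 : SL(2, ℤ)) ∈ Γ) (b : SL(2, ℤ) ⧸ Γ) :
    (S * T) ^ 3 • b = b := by
  rw [Comb.ST_cube, neg_one_smul_coset hneg]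

/-! ### Traces of the elliptic generators -/

theorem trace_S : (S : Matrix (Fin 2) (Fin 2) ℤ).trace = 0 := by
  rw [ModularGroup.coe_S, Matrix.trace_fin_two]
  simp

theorem trace_ST : ((S * T : SL(2, ℤ)) : Matrix (Fin 2) (Fin 2) ℤ).trace = 1 := by
  rw [Matrix.SpecialLinearGroup.coe_mul, ModularGroup.coe_S, ModularGroup.coe_T,
    Matrix.trace_fin_two]
  simp [Matrix.mul_apply, Fin.sum_univ_two]

theorem trace_neg_one : ((-1 : SL(2, ℤ)) : Matrix (Fin 2) (Fin 2) ℤ).trace = -2 := by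
  rw [Matrix.SpecialLinearGroup.coe_neg, Matrix.SpecialLinearGroup.coe_one, Matrix.trace_neg,
    Matrix.trace_one]
  simp

theorem trace_one : ((1 : SL(2, ℤ)) : Matrix (Fin 2) (Fin 2) ℤ).trace = 2 := by
  rw [Matrix.SpecialLinearGroup.coe_one, Matrix.trace_one]
  simp

/-! ### The finite points -/

/-- The value of the valuations `wFin` on `x - a`. -/
theorem wFin_x_sub_const (τ : ℍ) (a : K) (hτ : jFn τ = ι a) (b : SL(2, ℤ) ⧸ Γ) :
    wFin D τ b (x - algebraMap K F a) =
      MerFun.ordMer τ (algebraMap HolFun MerFun (jHol - algebraMap ℂ HolFun (jFn τ))) := by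
  rw [wFin, map_sub, sigma_x, sigma_const, Conj.const, ← map_sub, hτ]

theorem isCuspMer_sigma {n : ℕ} (hcusp : ∀ (f : F) (g : SL(2, ℤ)), IsCuspMer n (g • D.emb f))
    (b : SL(2, ℤ) ⧸ Γ) (f : F) : IsCuspMer n (sigma D b f) := by
  induction b using QuotientGroup.induction_on with
  | H g =>
    rw [sigma_mk_apply]
    exact hcusp f g

variable [IsAlgClosed K] [CharZero K] [Fintype (SL(2, ℤ) ⧸ Γ)] [FiniteDimensional K⟮x⟯ F]
  (hnorm : ∀ (b0 : SL(2, ℤ) ⧸ Γ) (f : F),
      sigma D b0 (algebraMap K⟮x⟯ F (Algebra.norm K⟮x⟯ f)) = ∏ b, sigma D b f)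

include hnorm

/-- **Finite places, general form.** Let `τ` be a point over `a`, fixed by `γ`, with
`m = ord_τ (j - a)` equal to `1` or a prime, `γ ^ m` acting trivially on the cosets and
`m ∣ ord_τ h` for `γ`-invariant `h`.  Then every zero `v` of `x - a` is a point of `ℍ`. -/
theorem exists_point_of_zero (a : K) (τ : ℍ) (hτ : jFn τ = ι a) (γ : SL(2, ℤ)) (hγ : γ • τ = τ)
    (m : ℕ) (hm : 0 < m) (hmp : m = 1 ∨ m.Prime)
    (hord : MerFun.ordMer τ (algebraMap HolFun MerFun (jHol - algebraMap ℂ HolFun (jFn τ))) = m)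
    (hper : ∀ b : SL(2, ℤ) ⧸ Γ, γ ^ m • b = b)
    (hdiv : ∀ h : MerFun, γ • h = h → (m : ℤ) ∣ MerFun.ordMer τ h)
    (htr1 : |(γ : Matrix (Fin 2) (Fin 2) ℤ).trace| ≤ 2)
    (htrm : |((γ ^ m : SL(2, ℤ)) : Matrix (Fin 2) (Fin 2) ℤ).trace| ≤ 2)
    (v : Place K F) (hv : 0 < v.ord (x - algebraMap K F a)) :
    ∃ (z : ℍ) (δ : SL(2, ℤ)) (e : ℕ), δ ∈ Γ ∧ δ • z = z ∧ 0 < e ∧
      |(δ : Matrix (Fin 2) (Fin 2) ℤ).trace| ≤ 2 ∧
      (∀ h : MerFun, δ • h = h → (e : ℤ) ∣ MerFun.ordMer z h) ∧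
      ∀ f, (e : ℤ) * v.ord f = MerFun.ordMer z (D.emb f) := by
  set y : F := x - algebraMap K F a with hy
  have hx := transcendental_x D
  have hty : Transcendental K y := RH.transcendental_sub_const hx a
  have hy0 : y ≠ 0 := fun h0 => hty (h0 ▸ isAlgebraic_zero)
  have hxy : K⟮y⟯ = K⟮x⟯ := RH.adjoin_sub_const x a
  have hfd : FiniteDimensional K⟮y⟯ F :=
    Final.finiteDimensional_congr hxy.symm inferInstance
  have P : ZeroPlacesData K y := ZP.zeroPlacesData y hty
  have hperpt : ∀ b : SL(2, ℤ) ⧸ Γ,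
      Function.minimalPeriod (MulAction.toPerm γ : Equiv.Perm (SL(2, ℤ) ⧸ Γ)) b ∣ m :=
    fun b => Periods.minimalPeriod_toPerm_dvd (hper b)
  have hcases : ∀ b : SL(2, ℤ) ⧸ Γ,
      Function.minimalPeriod (MulAction.toPerm γ : Equiv.Perm (SL(2, ℤ) ⧸ Γ)) b = 1 ∨
      Function.minimalPeriod (MulAction.toPerm γ : Equiv.Perm (SL(2, ℤ) ⧸ Γ)) b = m := by
    intro b
    rcases hmp with h1 | hp
    · left
      have := hperpt b
      rw [h1] at this
      exact Nat.dvd_one.mp this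
    · exact (Nat.dvd_prime hp).mp (hperpt b)
  obtain ⟨β, hsurj, -, -, -, hrel⟩ := placeCountRel (K := K) y hy0 P
    (MulAction.toPerm γ : Equiv.Perm (SL(2, ℤ) ⧸ Γ)) m hm
    (fun b f => wFin D τ b f) (fun b => isAddVal_wFin D τ b)
    (fun b => by
      show wFin D τ b y = m
      rw [wFin_x_sub_const D τ a hτ b, hord])
    (QuotientGroup.mk 1)
    (fun f hf => by
      show ∑ b, wFin D τ b f = wFin D τ _ _
      rw [sum_wFin D hnorm τ (QuotientGroup.mk 1) f hf,
        Final.algebraMap_norm_congr hxy.symm f])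
    (fun b f => wFin_smul D τ γ hγ b f) hperpt
    (fun b f hf => by
      show ((m / Function.minimalPeriod
        (MulAction.toPerm γ : Equiv.Perm (SL(2, ℤ) ⧸ Γ)) b : ℕ) : ℤ) ∣ wFin D τ b f
      rcases hcases b with h1 | h1
      · rw [h1, Nat.div_one]
        have hfix : γ • b = b := Periods.smul_eq_of_minimalPeriod_eq_one h1
        apply hdiv
        rw [smul_sigma, hfix]
      · rw [h1, Nat.div_self hm]
        simp)
  obtain ⟨b, hb⟩ := hsurj ⟨v, hv⟩
  have hbv : (β b).1 = v := congrArg Subtype.val hb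
  induction b using QuotientGroup.induction_on with
  | H g0 =>
  set k := Function.minimalPeriod
    (MulAction.toPerm γ : Equiv.Perm (SL(2, ℤ) ⧸ Γ)) (QuotientGroup.mk g0) with hk
  have hkm : k ∣ m := hperpt _
  have hk0 : 0 < k := Nat.pos_of_dvd_of_pos hkm hm
  have hfixk : γ ^ k • (QuotientGroup.mk g0 : SL(2, ℤ) ⧸ Γ) = QuotientGroup.mk g0 :=
    Periods.pow_minimalPeriod_smul γ _
  refine ⟨g0⁻¹ • τ, g0⁻¹ * γ ^ k * g0, m / k, conj_mem_of_smul_eq hfixk, ?_,
    Nat.div_pos (Nat.le_of_dvd hm hkm) hk0, ?_, ?_, ?_⟩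
  · rw [mul_smul, mul_smul, smul_inv_smul, pow_smul_fixed hγ]
  · rw [trace_conj]
    rcases hcases (QuotientGroup.mk g0) with h1 | h1
    · rw [← hk] at h1
      rw [h1, pow_one]
      exact htr1
    · rw [← hk] at h1
      rw [h1]
      exact htrm
  · intro h hh
    rcases hcases (QuotientGroup.mk g0) with h1 | h1
    · rw [← hk] at h1
      rw [h1, Nat.div_one]
      rw [h1, pow_one] at hh
      have hinv : γ • (g0 • h) = g0 • h := by
        have : γ * g0 = g0 * (g0⁻¹ * γ * g0) := by group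
        rw [← mul_smul, this, mul_smul, hh]
      have := hdiv (g0 • h) hinv
      rwa [MerFun.ordMer_sl_smul] at this
    · rw [← hk] at h1
      rw [h1, Nat.div_self hm]
      simp
  · intro f
    rcases eq_or_ne f 0 with rfl | hf
    · rw [v.ord_zero, mul_zero, map_zero, MerFun.ordMer_zero]
    · have h := hrel (QuotientGroup.mk g0) f hf
      rw [hbv] at h
      rw [← hk] at h
      rw [h]
      exact wFin_mk D τ g0 f

variable (hneg : (-1 : SL(2, ℤ)) ∈ Γ)

include hneg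

/-- The finite places: every place which is not a pole of `x` is a point of `ℍ`. -/
theorem exists_point_of_ord_pos (v : Place K F) (a : K)
    (hv : 0 < v.ord (x - algebraMap K F a)) :
    ∃ (z : ℍ) (δ : SL(2, ℤ)) (e : ℕ), δ ∈ Γ ∧ δ • z = z ∧ 0 < e ∧
      |(δ : Matrix (Fin 2) (Fin 2) ℤ).trace| ≤ 2 ∧
      (∀ h : MerFun, δ • h = h → (e : ℤ) ∣ MerFun.ordMer z h) ∧
      ∀ f, (e : ℤ) * v.ord f = MerFun.ordMer z (D.emb f) := by
  by_cases ha0 : ι a = 0
  · refine exists_point_of_zero D hnorm a JFun.rho (by rw [JFun.jFn_rho, ha0]) (S * T)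
      JFun.ST_smul_rho 3
      (by norm_num) (Or.inr Nat.prime_three) ?_ (fun b => ST_pow_three_smul hneg b)
      (fun h hh => Bridge.three_dvd_ordMer_of_ST h JFun.rho JFun.ST_smul_rho hh) ?_ ?_ v hv
    · rw [Bridge.ordMer_jHol_sub_const, if_pos JFun.jFn_rho]
      rfl
    · rw [trace_ST]; norm_num
    · rw [Comb.ST_cube, trace_neg_one]; norm_num
  · by_cases ha1 : ι a = 1728
    · have h1728 : (1728 : ℂ) ≠ 0 := by norm_num
      refine exists_point_of_zero D hnorm a UpperHalfPlane.I (by rw [JFun.jFn_I, ha1]) S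
        JFun.S_smul_I 2
        (by norm_num) (Or.inr Nat.prime_two) ?_ (fun b => S_pow_two_smul hneg b)
        (fun h hh => Bridge.two_dvd_ordMer_of_S h UpperHalfPlane.I JFun.S_smul_I hh) ?_ ?_ v hv
      · rw [Bridge.ordMer_jHol_sub_const, JFun.jFn_I, if_neg h1728, if_pos rfl]
        rfl
      · rw [trace_S]; norm_num
      · rw [Comb.S_sq, trace_neg_one]; norm_num
    · obtain ⟨τ, hτ⟩ := JFun.jFn_surjective (ι a)
      have h0 : jFn τ ≠ 0 := by rw [hτ]; exact ha0
      have h1 : jFn τ ≠ 1728 := by rw [hτ]; exact ha1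
      refine exists_point_of_zero D hnorm a τ hτ 1 (one_smul _ τ) 1 one_pos (Or.inl rfl) ?_
        (fun b => by rw [pow_one, one_smul]) (fun h _ => one_dvd _) ?_ ?_ v hv
      · rw [Bridge.ordMer_jHol_sub_const, if_neg h0, if_neg h1]
        rfl
      · rw [trace_one]; norm_num
      · rw [pow_one, trace_one]; norm_num

omit hneg

/-! ### The cusps -/

variable {n : ℕ} (hn : 0 < n)
  (hcusp : ∀ (f : F) (g : SL(2, ℤ)), IsCuspMer n (g • D.emb f))
  (hT : ∀ b : SL(2, ℤ) ⧸ Γ, T ^ n • b = b)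

include hn hcusp hT

/-- The poles of `x` are cusps. -/
theorem exists_cusp_of_pole (v : Place K F) (hv : v.ord x < 0) :
    ∃ (g : SL(2, ℤ)) (w : ℕ), 0 < w ∧ w ∣ n ∧ g⁻¹ * T ^ w * g ∈ Γ ∧
      ∀ f, ((n / w : ℕ) : ℤ) * v.ord f = ordInfMer n (g • D.emb f) := by
  set y : F := x⁻¹ with hy
  have hx := transcendental_x D
  have hty : Transcendental K y := RH.transcendental_inv hx
  have hy0 : y ≠ 0 := fun h0 => hty (h0 ▸ isAlgebraic_zero)
  have hvy : 0 < v.ord y := by
    rw [hy, v.ord_inv]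
    omega
  have hxy : K⟮y⟯ = K⟮x⟯ := RH.adjoin_inv x
  have hfd : FiniteDimensional K⟮y⟯ F :=
    Final.finiteDimensional_congr hxy.symm inferInstance
  have P : ZeroPlacesData K y := ZP.zeroPlacesData y hty
  have hperpt : ∀ b : SL(2, ℤ) ⧸ Γ,
      Function.minimalPeriod (MulAction.toPerm T : Equiv.Perm (SL(2, ℤ) ⧸ Γ)) b ∣ n :=
    fun b => Periods.minimalPeriod_toPerm_dvd (hT b)
  obtain ⟨β, hsurj, -, -, -, hrel⟩ := placeCountRel (K := K) y hy0 P
    (MulAction.toPerm T : Equiv.Perm (SL(2, ℤ) ⧸ Γ)) n hn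
    (fun b f => ordInfMer n (sigma D b f))
    (fun b => isAddVal_ordInfMer_comp hn (sigma D b) (fun c : K => ι c)
      (fun f => isCuspMer_sigma D hcusp b f) (fun c => sigma_const D b c))
    (fun b => by
      show ordInfMer n (sigma D b x⁻¹) = n
      rw [map_inv₀, sigma_x]
      exact ordInfMer_jHol_inv hn)
    (QuotientGroup.mk 1)
    (fun f hf => by
      show ∑ b, ordInfMer n (sigma D b f) = ordInfMer n (sigma D _ _)
      rw [← Final.algebraMap_norm_congr hxy.symm f, hnorm _ f,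
        AssembleInf.ordInfMer_prod hn _ _ (fun b _ => isCuspMer_sigma D hcusp b f)
          (fun b _ => sigma_ne_zero D b hf)])
    (fun b f => by
      show ordInfMer n (sigma D (T • b) f) = ordInfMer n (sigma D b f)
      rw [← smul_sigma, ordInfMer_T_smul hn (isCuspMer_sigma D hcusp b f)])
    hperpt
    (fun b f hf => by
      show ((n / Function.minimalPeriod
        (MulAction.toPerm T : Equiv.Perm (SL(2, ℤ) ⧸ Γ)) b : ℕ) : ℤ) ∣
          ordInfMer n (sigma D b f)
      refine dvd_ordInfMer hn (hperpt b) (isCuspMer_sigma D hcusp b f) ?_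
      rw [smul_sigma, Periods.pow_minimalPeriod_smul])
  obtain ⟨b, hb⟩ := hsurj ⟨v, hvy⟩
  have hbv : (β b).1 = v := congrArg Subtype.val hb
  induction b using QuotientGroup.induction_on with
  | H g0 =>
  set w := Function.minimalPeriod
    (MulAction.toPerm T : Equiv.Perm (SL(2, ℤ) ⧸ Γ)) (QuotientGroup.mk g0) with hw
  have hwn : w ∣ n := hperpt _
  have hw0 : 0 < w := Nat.pos_of_dvd_of_pos hwn hn
  have hfixw : T ^ w • (QuotientGroup.mk g0 : SL(2, ℤ) ⧸ Γ) = QuotientGroup.mk g0 :=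
    Periods.pow_minimalPeriod_smul T _
  refine ⟨g0, w, hw0, hwn, conj_mem_of_smul_eq hfixw, ?_⟩
  intro f
  rcases eq_or_ne f 0 with rfl | hf
  · rw [v.ord_zero, mul_zero, map_zero, smul_zero, ordInfMer_zero]
  · have h := hrel (QuotientGroup.mk g0) f hf
    rw [hbv] at h
    rw [← hw] at h
    rw [h]
    rfl

/-! ### Every place is a point of `ℍ` or a cusp -/

include hneg in
/-- **Classification of the places.** Every place of `F` is either a point of `ℍ`
(with `e` the order of its stabiliser in `Γ / ±1`) or a cusp (of width `w`). -/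
theorem place_cases (v : Place K F) :
    (∃ (z : ℍ) (δ : SL(2, ℤ)) (e : ℕ), δ ∈ Γ ∧ δ • z = z ∧ 0 < e ∧
      |(δ : Matrix (Fin 2) (Fin 2) ℤ).trace| ≤ 2 ∧
      (∀ h : MerFun, δ • h = h → (e : ℤ) ∣ MerFun.ordMer z h) ∧
      ∀ f, (e : ℤ) * v.ord f = MerFun.ordMer z (D.emb f)) ∨
    (∃ (g : SL(2, ℤ)) (w : ℕ), 0 < w ∧ w ∣ n ∧ g⁻¹ * T ^ w * g ∈ Γ ∧
      ∀ f, ((n / w : ℕ) : ℤ) * v.ord f = ordInfMer n (g • D.emb f)) := by
  rcases PD.ord_neg_or_existsUnique_fibre (transcendental_x D) v with h | ⟨a, ha, -⟩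
  · exact Or.inr (exists_cusp_of_pole D hnorm hn hcusp hT v h)
  · exact Or.inl (exists_point_of_ord_pos D hnorm hneg v a ha)

omit hnorm hT [Fintype (SL(2, ℤ) ⧸ Γ)] [FiniteDimensional K⟮x⟯ F] [CharZero K]

/-! ### Points and cusps give places -/

omit hn hcusp in
/-- Every point of `ℍ` whose `j`-value comes from `K` gives a place. -/
theorem exists_place_of_point (z : ℍ) (hz : ∃ a : K, ι a = jFn z) :
    ∃ (v : Place K F) (c : ℕ), 0 < c ∧
      ∀ f, f ≠ 0 → (c : ℤ) * v.ord f = MerFun.ordMer z (D.emb f) := by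
  have hw : IsAddVal K (fun f : F => MerFun.ordMer z (D.emb f)) := by
    have h := isAddVal_wFin D z (QuotientGroup.mk 1)
    have he : (fun f : F => MerFun.ordMer z (D.emb f)) = wFin D z (QuotientGroup.mk 1) := by
      funext f
      rw [wFin_mk, inv_one, one_smul]
    rw [he]
    exact h
  have hnt : ∃ f : F, f ≠ 0 ∧ MerFun.ordMer z (D.emb f) ≠ 0 := by
    obtain ⟨a, ha⟩ := hz
    refine ⟨x - algebraMap K F a, ?_, ?_⟩
    · intro h0
      exact RH.transcendental_sub_const (transcendental_x D) a (h0 ▸ isAlgebraic_zero)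
    · rw [map_sub, D.emb_x, D.emb_const, Conj.const, ← map_sub, ha,
        Bridge.ordMer_jHol_sub_const]
      split_ifs <;> norm_num
  obtain ⟨v, c, hc, h⟩ := hw.exists_place hnt
  exact ⟨v, c, hc, fun f hf => (h f hf).symm⟩

/-- Every cusp gives a place. -/
theorem exists_place_of_cusp (g : SL(2, ℤ)) :
    ∃ (v : Place K F) (c : ℕ), 0 < c ∧
      ∀ f, f ≠ 0 → (c : ℤ) * v.ord f = ordInfMer n (g • D.emb f) := by
  have hw : IsAddVal K (fun f : F => ordInfMer n (g • D.emb f)) :=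
    isAddVal_ordInfMer_comp hn (sigma D (QuotientGroup.mk g)) (fun c : K => ι c)
      (fun f => isCuspMer_sigma D hcusp _ f) (fun c => sigma_const D _ c)
  have hnt : ∃ f : F, f ≠ 0 ∧ ordInfMer n (g • D.emb f) ≠ 0 := by
    refine ⟨x, ?_, ?_⟩
    · intro h0
      exact transcendental_x D (h0 ▸ isAlgebraic_zero)
    · rw [D.emb_x, MerFun.sl_smul_algebraMap, sl_smul_jHol, ordInfMer_jHol hn]
      have : (0 : ℤ) < n := by exact_mod_cast hn
      omega
  obtain ⟨v, c, hc, h⟩ := hw.exists_place hnt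
  exact ⟨v, c, hc, fun f hf => (h f hf).symm⟩

end Fermat.Agent.S27x.G1
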