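/-
P-S27, block A, A-Genus (helper24): the genus of a `Γ`-general modular function field, in orbit
form.  `Γ`-general version of `S24/AssembleFin.lean`, `S24/AssembleInf.lean`, `S24/Final.lean`.

Setting as in `PlacesGamma.lean`: `K` algebraically closed of characteristic zero with
`ι : K →+* ℂ`, `D : Dict.ConjAbs.EmbData K F ι x Γ`, `[Fintype (SL(2,ℤ) ⧸ Γ)]`,
`[FiniteDimensional K⟮x⟯ F]`, `hnorm`, `hneg : -1 ∈ Γ`, `hn : 0 < n`, `hcusp`,
`hT : T ^ n` acts trivially on the cosets.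

* `pcInput_zero`, `pcInput_1728`, `pcInput_generic`, `pcInput_inf` : the inputs of the place
  counting theorem over `0`, `1728`, the other finite values and `∞`;
* `two_genusFF_add` :
  `2 * genusFF K F + orbNum S X + orbNum (S * T) X + orbNum T X = Nat.card X + 2`,
  `X = SL(2,ℤ) ⧸ Γ` (Riemann-Hurwitz for `x`, the numbers of places over `1728`, `0`, `∞` being
  the numbers of orbits of `S`, `S * T`, `T` on `X`).
-/
import Fermat.Agent.S27x.G1.PlacesGamma
import Fermat.Agent.S24.Final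
import Fermat.Agent.S24.FFDataAll
import Fermat.Agent.Lib.RiemannRoch.GenusCompare
import Fermat.Agent.Gateway.A2.OrbitSum

set_option autoImplicit false
set_option linter.unusedSectionVars false

noncomputable section

open UpperHalfPlane IntermediateField ModularGroup AlgebraicCurve
open scoped MatrixGroups

namespace Fermat.Agent.S27x.G1

open Fermat.Agent.S24 Fermat.Agent.S24.CuspOrd Fermat.Agent.S24.Final
open Fermat.Agent.Gateway.Dict.ConjAbs

variable {K F : Type*} [Field K] [Field F] [Algebra K F]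
  {ι : K →+* ℂ} {x : F} {Γ : Subgroup SL(2, ℤ)} (D : EmbData K F ι x Γ)
  [IsAlgClosed K] [CharZero K] [Fintype (SL(2, ℤ) ⧸ Γ)] [FiniteDimensional K⟮x⟯ F]
  (hnorm : ∀ (b0 : SL(2, ℤ) ⧸ Γ) (f : F),
      sigma D b0 (algebraMap K⟮x⟯ F (Algebra.norm K⟮x⟯ f)) = ∏ b, sigma D b f)

include hnorm

/-! ### The finite points -/

/-- The general form: a point `τ` over `a`, fixed by `γ`, with `m = ord_τ (j - j(τ))` equal to
`1` or a prime, `γ ^ m` acting trivially on the cosets, and `m ∣ ord_τ h` for `γ`-invariant `h`. -/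
theorem pcInput_of_fixed (a : K) (τ : ℍ) (hτ : jFn τ = ι a) (γ : SL(2, ℤ)) (hγ : γ • τ = τ)
    (m : ℕ) (hm : 0 < m) (hmp : m = 1 ∨ m.Prime)
    (hord : MerFun.ordMer τ (algebraMap HolFun MerFun (jHol - algebraMap ℂ HolFun (jFn τ))) = m)
    (hper : ∀ b : SL(2, ℤ) ⧸ Γ, γ ^ m • b = b)
    (hdiv : ∀ h : MerFun, γ • h = h → (m : ℤ) ∣ MerFun.ordMer τ h) :
    PCInput K x (x - algebraMap K F a)
      (MulAction.toPerm γ : Equiv.Perm (SL(2, ℤ) ⧸ Γ)) := by
  have hperpt : ∀ b : SL(2, ℤ) ⧸ Γ,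
      Function.minimalPeriod (MulAction.toPerm γ : Equiv.Perm (SL(2, ℤ) ⧸ Γ)) b ∣ m :=
    fun b => Periods.minimalPeriod_toPerm_dvd (hper b)
  refine ⟨m, fun b f => wFin D τ b f, QuotientGroup.mk 1, hm, fun b => isAddVal_wFin D τ b,
    fun b => ?_, fun f hf => sum_wFin D hnorm τ _ f hf, fun b f => ?_, hperpt, fun b f hf => ?_⟩
  · show wFin D τ b (x - algebraMap K F a) = m
    rw [wFin_x_sub_const D τ a hτ b, hord]
  · exact wFin_smul D τ γ hγ b f
  · show ((m / Function.minimalPeriod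
        (MulAction.toPerm γ : Equiv.Perm (SL(2, ℤ) ⧸ Γ)) b : ℕ) : ℤ) ∣ wFin D τ b f
    have hdvd := hperpt b
    have hcases : Function.minimalPeriod
        (MulAction.toPerm γ : Equiv.Perm (SL(2, ℤ) ⧸ Γ)) b = 1 ∨
        Function.minimalPeriod
          (MulAction.toPerm γ : Equiv.Perm (SL(2, ℤ) ⧸ Γ)) b = m := by
      rcases hmp with h1 | hp
      · left
        rw [h1] at hdvd
        exact Nat.dvd_one.mp hdvd
      · exact (Nat.dvd_prime hp).mp hdvd
    rcases hcases with h1 | h1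
    · rw [h1, Nat.div_one]
      have hfix : γ • b = b := Periods.smul_eq_of_minimalPeriod_eq_one h1
      apply hdiv
      rw [smul_sigma, hfix]
    · rw [h1, Nat.div_self hm]
      simp

/-- Over a value `a ≠ 0, 1728`: the trivial permutation, `m = 1`. -/
theorem pcInput_generic (a : K) (ha0 : ι a ≠ 0) (ha1 : ι a ≠ 1728) :
    PCInput K x (x - algebraMap K F a) (1 : Equiv.Perm (SL(2, ℤ) ⧸ Γ)) := by
  obtain ⟨τ, hτ⟩ := JFun.jFn_surjective (ι a)
  have h0 : jFn τ ≠ 0 := by rw [hτ]; exact ha0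
  have h1 : jFn τ ≠ 1728 := by rw [hτ]; exact ha1
  have key := pcInput_of_fixed D hnorm a τ hτ 1 (one_smul _ τ) 1 one_pos (Or.inl rfl)
    (by rw [Bridge.ordMer_jHol_sub_const, if_neg h0, if_neg h1]; rfl)
    (fun b => by rw [pow_one, one_smul]) (fun h _ => one_dvd _)
  have hone : (MulAction.toPerm (1 : SL(2, ℤ)) : Equiv.Perm (SL(2, ℤ) ⧸ Γ)) = 1 :=
    map_one (MulAction.toPermHom SL(2, ℤ) (SL(2, ℤ) ⧸ Γ))
  rwa [hone] at key

variable (hneg : (-1 : SL(2, ℤ)) ∈ Γ)

include hneg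

/-- Over `a = 0`: the permutation `S * T`, `m = 3`. -/
theorem pcInput_zero :
    PCInput K x (x - algebraMap K F 0)
      (MulAction.toPerm (S * T) : Equiv.Perm (SL(2, ℤ) ⧸ Γ)) := by
  refine pcInput_of_fixed D hnorm 0 JFun.rho (by rw [JFun.jFn_rho, map_zero]) (S * T)
    JFun.ST_smul_rho 3 (by norm_num) (Or.inr Nat.prime_three) ?_ ?_ ?_
  · rw [Bridge.ordMer_jHol_sub_const, if_pos JFun.jFn_rho]
    rfl
  · intro b
    exact ST_pow_three_smul hneg b
  · intro h hh
    exact Bridge.three_dvd_ordMer_of_ST h JFun.rho JFun.ST_smul_rho hh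

/-- Over `a = 1728`: the permutation `S`, `m = 2`. -/
theorem pcInput_1728 :
    PCInput K x (x - algebraMap K F 1728)
      (MulAction.toPerm S : Equiv.Perm (SL(2, ℤ) ⧸ Γ)) := by
  have h1728 : (1728 : ℂ) ≠ 0 := by norm_num
  refine pcInput_of_fixed D hnorm 1728 UpperHalfPlane.I (by rw [JFun.jFn_I, map_ofNat]) S
    JFun.S_smul_I 2 (by norm_num) (Or.inr Nat.prime_two) ?_ ?_ ?_
  · rw [Bridge.ordMer_jHol_sub_const, JFun.jFn_I, if_neg h1728, if_pos rfl]
    rfl
  · intro b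
    exact S_pow_two_smul hneg b
  · intro h hh
    exact Bridge.two_dvd_ordMer_of_S h UpperHalfPlane.I JFun.S_smul_I hh

omit hneg

/-! ### The cusps -/

variable {n : ℕ} (hn : 0 < n)
  (hcusp : ∀ (f : F) (g : SL(2, ℤ)), IsCuspMer n (g • D.emb f))
  (hT : ∀ b : SL(2, ℤ) ⧸ Γ, T ^ n • b = b)

include hn hcusp hT

/-- **The place counting input at `∞`**: the permutation `T`, `m = n`. -/
theorem pcInput_inf :
    PCInput K x x⁻¹ (MulAction.toPerm T : Equiv.Perm (SL(2, ℤ) ⧸ Γ)) := by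
  have hperpt : ∀ b : SL(2, ℤ) ⧸ Γ,
      Function.minimalPeriod (MulAction.toPerm T : Equiv.Perm (SL(2, ℤ) ⧸ Γ)) b ∣ n :=
    fun b => Periods.minimalPeriod_toPerm_dvd (hT b)
  refine ⟨n, fun b f => ordInfMer n (sigma D b f), QuotientGroup.mk 1, hn,
    fun b => isAddVal_ordInfMer_comp hn (sigma D b) (fun c : K => ι c)
      (fun f => isCuspMer_sigma D hcusp b f) (fun c => sigma_const D b c),
    fun b => ?_, fun f hf => ?_, fun b f => ?_, hperpt, fun b f _ => ?_⟩
  · show ordInfMer n (sigma D b x⁻¹) = n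
    rw [map_inv₀, sigma_x]
    exact ordInfMer_jHol_inv hn
  · show ∑ b, ordInfMer n (sigma D b f) = ordInfMer n (sigma D _ _)
    rw [hnorm _ f, AssembleInf.ordInfMer_prod hn _ _ (fun b _ => isCuspMer_sigma D hcusp b f)
      (fun b _ => sigma_ne_zero D b hf)]
  · show ordInfMer n (sigma D (T • b) f) = ordInfMer n (sigma D b f)
    rw [← smul_sigma, ordInfMer_T_smul hn (isCuspMer_sigma D hcusp b f)]
  · show ((n / Function.minimalPeriod
      (MulAction.toPerm T : Equiv.Perm (SL(2, ℤ) ⧸ Γ)) b : ℕ) : ℤ) ∣ ordInfMer n (sigma D b f)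
    refine dvd_ordInfMer hn (hperpt b) (isCuspMer_sigma D hcusp b f) ?_
    rw [smul_sigma, Periods.pow_minimalPeriod_smul]

/-! ### The genus -/

include hneg

/-- **The degree of the divisor of `dx`** in terms of the orbit counts. -/
theorem degree_div_dx (W : Divisor K F)
    (hW : ∀ v : Place K F, W v = v.ordDifferential (KaehlerDifferential.D K F x)) :
    Divisor.degree W = -((Fintype.card (SL(2, ℤ) ⧸ Γ) : ℤ)
        + orbCount (MulAction.toPerm T : Equiv.Perm (SL(2, ℤ) ⧸ Γ)))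
      + (((Fintype.card (SL(2, ℤ) ⧸ Γ) : ℤ)
          - orbCount (MulAction.toPerm (S * T) : Equiv.Perm (SL(2, ℤ) ⧸ Γ)))
        + ((Fintype.card (SL(2, ℤ) ⧸ Γ) : ℤ)
          - orbCount (MulAction.toPerm S : Equiv.Perm (SL(2, ℤ) ⧸ Γ)))) := by
  classical
  have hx := transcendental_x D
  have hFF : RH.FFData K x := FFDataAll.ffData hx
  -- `|X| = [F : K(x)]`, from the place counting theorem over a generic value
  obtain ⟨a, ha0, ha1⟩ : ∃ a : K, ι a ≠ 0 ∧ ι a ≠ 1728 := by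
    refine ⟨1, ?_, ?_⟩ <;> rw [map_one] <;> norm_num
  have hZ : ∀ (y : F), Transcendental K y → ∀ [FiniteDimensional K⟮y⟯ F], ZeroPlacesData K y :=
    fun y hy _ => ZP.zeroPlacesData y hy
  have hX : Fintype.card (SL(2, ℤ) ⧸ Γ) = Module.finrank K⟮x⟯ F := by
    -- count the places over `a` with multiplicities
    have hta := RH.transcendental_sub_const hx a
    have hy0 : x - algebraMap K F a ≠ 0 := fun h0 => hta (h0 ▸ isAlgebraic_zero)
    have hxy : K⟮x - algebraMap K F a⟯ = K⟮x⟯ := RH.adjoin_sub_const x a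
    have hfd : FiniteDimensional K⟮x - algebraMap K F a⟯ F :=
      Final.finiteDimensional_congr hxy.symm inferInstance
    obtain ⟨m, w, b0, hm, hw, hwa, hN, hc, hper, hd⟩ := pcInput_generic D hnorm a ha0 ha1
    obtain ⟨β, -, -, -, hcard⟩ := placeCount (K := K) (x - algebraMap K F a) hy0
      (ZP.zeroPlacesData _ hta) (1 : Equiv.Perm (SL(2, ℤ) ⧸ Γ)) m hm w hw hwa b0
      (fun f hf => by rw [hN f hf, Final.algebraMap_norm_congr hxy.symm f]) hc hper hd
    obtain ⟨inst, hsum⟩ := ZD.sum_ord_zeros (x - algebraMap K F a) hta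
    have h2 : ∑ᶠ z : ZeroPlace K (x - algebraMap K F a), z.1.ord (x - algebraMap K F a)
        = (Module.finrank K⟮x - algebraMap K F a⟯ F : ℤ) := by
      rw [← hsum]
      exact finsum_eq_sum_of_fintype _
    have h3 : (Fintype.card (SL(2, ℤ) ⧸ Γ) : ℤ) = (Module.finrank K⟮x⟯ F : ℤ) := by
      rw [hcard, h2, PD.finrank_adjoin_sub_const]
    exact_mod_cast h3
  have h1728ne : (1728 : K) ≠ 0 := by norm_num
  let gOf : K → Equiv.Perm (SL(2, ℤ) ⧸ Γ) := fun a =>
    if a = 0 then MulAction.toPerm (S * T) else if a = 1728 then MulAction.toPerm S else 1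
  have hgOf0 : gOf 0 = MulAction.toPerm (S * T) := if_pos rfl
  have hgOf1728 : gOf 1728 = MulAction.toPerm S := by
    show (if (1728 : K) = 0 then _ else _) = _
    rw [if_neg h1728ne, if_pos rfl]
  have hgOfgen : ∀ a : K, a ≠ 0 → a ≠ 1728 → gOf a = 1 := by
    intro a ha0 ha1
    show (if a = 0 then _ else _) = _
    rw [if_neg ha0, if_neg ha1]
  have hfinAll : ∀ a : K, PCInput K x (x - algebraMap K F a) (gOf a) := by
    intro a
    by_cases ha0 : a = 0
    · subst ha0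
      rw [hgOf0]
      exact pcInput_zero D hnorm hneg
    · by_cases ha1 : a = 1728
      · subst ha1
        rw [hgOf1728]
        exact pcInput_1728 D hnorm hneg
      · rw [hgOfgen a ha0 ha1]
        refine pcInput_generic D hnorm a ?_ ?_
        · exact (map_ne_zero_iff _ ι.injective).mpr ha0
        · intro h
          apply ha1
          apply ι.injective
          rw [h, map_ofNat]
  have hinf := pcInput_inf D hnorm hn hcusp hT
  have hcard : ∀ a : K, Nat.card (RH.Zeros K (x - algebraMap K F a)) = orbCount (gOf a) := by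
    intro a
    have hta := RH.transcendental_sub_const hx a
    refine card_zeros_eq_orbCount x _ ?_ (RH.adjoin_sub_const x a) (hZ _ hta) _ (hfinAll a)
    intro h0
    exact hta (h0 ▸ isAlgebraic_zero)
  have hcardinf : Nat.card (RH.Zeros K x⁻¹)
      = orbCount (MulAction.toPerm T : Equiv.Perm (SL(2, ℤ) ⧸ Γ)) := by
    have hta := RH.transcendental_inv hx
    refine card_zeros_eq_orbCount x _ ?_ (RH.adjoin_inv x) (hZ _ hta) _ hinf
    intro h0
    exact hta (h0 ▸ isAlgebraic_zero)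
  have hR : RH.RamData K x ({0, 1728} : Finset K) (fun a => orbCount (gOf a))
      (orbCount (MulAction.toPerm T : Equiv.Perm (SL(2, ℤ) ⧸ Γ))) :=
    { card_zero := fun a _ => hcard a
      card_unram := fun a ha => by
        simp only [Finset.mem_insert, Finset.mem_singleton, not_or] at ha
        rw [hcard a, hgOfgen a ha.1 ha.2, orbCount_one, hX]
      card_inf := hcardinf }
  have key := RH.degree_div_dx hFF hR W hW
  rw [key, Finset.sum_pair h1728ne.symm, hgOf0, hgOf1728, ← hX]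

/-- **The genus in orbit form** (Riemann-Hurwitz for `x`): with `X = SL(2,ℤ) ⧸ Γ`,
`2 g + #orbits(S) + #orbits(S T) + #orbits(T) = |X| + 2`. -/
theorem two_genusFF_add :
    2 * genusFF K F
      + Fermat.Agent.Gateway.A2.orbNum (S : SL(2, ℤ)) (SL(2, ℤ) ⧸ Γ)
      + Fermat.Agent.Gateway.A2.orbNum (S * T : SL(2, ℤ)) (SL(2, ℤ) ⧸ Γ)
      + Fermat.Agent.Gateway.A2.orbNum (T : SL(2, ℤ)) (SL(2, ℤ) ⧸ Γ)
      = Nat.card (SL(2, ℤ) ⧸ Γ) + 2 := by
  have hx := transcendental_x D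
  obtain ⟨W, hW, hdeg, -⟩ := Fermat.Agent.Lib.RiemannRoch.GenusCompare.riemannRoch_dx_cz hx
  have h := degree_div_dx D hnorm hneg hn hcusp hT W hW
  rw [hdeg, orbCount_toPerm, orbCount_toPerm, orbCount_toPerm] at h
  rw [Nat.card_eq_fintype_card]
  have h1 : Fermat.Agent.Gateway.A2.orbNum (S : SL(2, ℤ)) (SL(2, ℤ) ⧸ Γ)
      = PartV.orbCount (SL(2, ℤ) ⧸ Γ) (S : SL(2, ℤ)) := rfl
  have h2 : Fermat.Agent.Gateway.A2.orbNum (S * T : SL(2, ℤ)) (SL(2, ℤ) ⧸ Γ)
      = PartV.orbCount (SL(2, ℤ) ⧸ Γ) (S * T : SL(2, ℤ)) := rfl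
  have h3 : Fermat.Agent.Gateway.A2.orbNum (T : SL(2, ℤ)) (SL(2, ℤ) ⧸ Γ)
      = PartV.orbCount (SL(2, ℤ) ⧸ Γ) (T : SL(2, ℤ)) := rfl
  rw [h1, h2, h3]
  have : ((2 * genusFF K F + PartV.orbCount (SL(2, ℤ) ⧸ Γ) (S : SL(2, ℤ))
      + PartV.orbCount (SL(2, ℤ) ⧸ Γ) (S * T : SL(2, ℤ))
      + PartV.orbCount (SL(2, ℤ) ⧸ Γ) (T : SL(2, ℤ)) : ℕ) : ℤ)
      = ((Fintype.card (SL(2, ℤ) ⧸ Γ) + 2 : ℕ) : ℤ) := by
    push_cast
    linarith
  exact_mod_cast this

end Fermat.Agent.S27x.G1
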